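/-
S56 / [CHEB] (helper15, prefix `s56ce_`), part 3: choosing `r` primes that kill a finite-dimensional
space (pure linear algebra).

`D` a finite-dimensional `k`-space (the dual Selmer group), `Loc q ≤ D` the classes which are locally
trivial at `q`, `Good q` the admissible (Taylor–Wiles) primes.  If every nonzero class survives at
some admissible prime outside any given finite set, then there are exactly `r` distinct admissible
primes (`r ≥ dim D` arbitrary; padding by `hpad`) outside `T` such that no nonzero class is locally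
trivial at all of them.
-/
import Mathlib

set_option autoImplicit false

namespace Fermat.Agent.S56

open Module

theorem s56ce_many_aux {k : Type*} [Field k] {D : Type*} [AddCommGroup D] [Module k D]
    [FiniteDimensional k D] (Good : ℕ → Prop) (Loc : ℕ → Submodule k D)
    (hpad : ∀ T : Finset ℕ, ∃ q, q ∉ T ∧ Good q)
    (hsel : ∀ d : D, d ≠ 0 → ∀ T : Finset ℕ, ∃ q, q ∉ T ∧ Good q ∧ d ∉ Loc q) :
    ∀ (r : ℕ) (K : Submodule k D), finrank k K ≤ r → ∀ T : Finset ℕ,
      ∃ qv : Fin r → ℕ, Function.Injective qv ∧ (∀ i, qv i ∉ T ∧ Good (qv i)) ∧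
        ∀ d ∈ K, (∀ i, d ∈ Loc (qv i)) → d = 0 := by
  classical
  intro r
  induction r with
  | zero =>
    intro K hK T
    have hK0 : K = ⊥ := Submodule.finrank_eq_zero.1 (Nat.le_zero.1 hK)
    refine ⟨Fin.elim0, fun i => i.elim0, fun i => i.elim0, fun d hd _ => ?_⟩
    rw [hK0] at hd
    exact (Submodule.mem_bot k).1 hd
  | succ r ih =>
    intro K hK T
    -- a prime `q ∉ T` such that `K ⊓ Loc q` has dimension `≤ r`
    have hq : ∃ q, q ∉ T ∧ Good q ∧ finrank k ↥(K ⊓ Loc q) ≤ r := by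
      by_cases hK0 : K = ⊥
      · obtain ⟨q, hqT, hq⟩ := hpad T
        refine ⟨q, hqT, hq, ?_⟩
        rw [hK0, bot_inf_eq, finrank_bot]
        exact Nat.zero_le r
      · obtain ⟨d, hdK, hd0⟩ := Submodule.exists_mem_ne_zero_of_ne_bot hK0
        obtain ⟨q, hqT, hq, hdq⟩ := hsel d hd0 T
        refine ⟨q, hqT, hq, ?_⟩
        have hlt : K ⊓ Loc q < K := by
          refine lt_of_le_of_ne inf_le_left fun h => hdq ?_
          have : d ∈ K ⊓ Loc q := by rw [h]; exact hdK
          exact this.2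
        have := Submodule.finrank_lt_finrank_of_lt hlt
        omega
    obtain ⟨q, hqT, hqG, hqr⟩ := hq
    obtain ⟨qv', hinj, hgood, hker⟩ := ih (K ⊓ Loc q) hqr (insert q T)
    have hne : ∀ i, qv' i ≠ q := fun i h =>
      (hgood i).1 (h ▸ Finset.mem_insert_self q T)
    refine ⟨Fin.cons q qv', ?_, ?_, ?_⟩
    · rw [Fin.cons_injective_iff]
      exact ⟨fun ⟨i, hi⟩ => hne i hi, hinj⟩
    · intro i
      refine Fin.cases ?_ (fun j => ?_) i
      · rw [Fin.cons_zero]; exact ⟨hqT, hqG⟩
      · rw [Fin.cons_succ]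
        exact ⟨fun h => (hgood j).1 (Finset.mem_insert_of_mem h), (hgood j).2⟩
    · intro d hdK hd
      refine hker d ⟨hdK, ?_⟩ fun j => ?_
      · have := hd 0
        rwa [Fin.cons_zero] at this
      · have := hd j.succ
        rwa [Fin.cons_succ] at this

/-- **Choosing the Taylor–Wiles primes**: exactly `finrank k D` of them. -/
theorem s56ce_many {k : Type*} [Field k] {D : Type*} [AddCommGroup D] [Module k D]
    [FiniteDimensional k D] (Good : ℕ → Prop) (Loc : ℕ → Submodule k D)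
    (hpad : ∀ T : Finset ℕ, ∃ q, q ∉ T ∧ Good q)
    (hsel : ∀ d : D, d ≠ 0 → ∀ T : Finset ℕ, ∃ q, q ∉ T ∧ Good q ∧ d ∉ Loc q)
    (r : ℕ) (hr : finrank k D ≤ r) (T : Finset ℕ) :
    ∃ qv : Fin r → ℕ, Function.Injective qv ∧ (∀ i, qv i ∉ T ∧ Good (qv i)) ∧
      ∀ d : D, (∀ i, d ∈ Loc (qv i)) → d = 0 := by
  obtain ⟨qv, h1, h2, h3⟩ := s56ce_many_aux Good Loc hpad hsel r ⊤ (by rwa [finrank_top]) T
  exact ⟨qv, h1, h2, fun d hd => h3 d Submodule.mem_top hd⟩

end Fermat.Agent.S56
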