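/-
S56 / [CHEB] (helper15, prefix `s56ce_`), part 1: Frobenius elements at a place of `ℚ̄`.

* `s56ce_frob_iff`     : `A.IsFrobeniusAt φ q ↔ φ • A = A ∧ ∀ a ∈ A, φ a - a ^ q ∈ 𝔪_A`;
* `s56ce_frob_conj`    : `φ` Frobenius at `A`  ⟹  `τ φ τ⁻¹` Frobenius at `τ • A`;
* `s56ce_frob_inertia` : two Frobenius elements at `A` differ by an element of the inertia group;
* `s56ce_frob_all`     : every Frobenius pair `(P, φ')` over `q` is `(τ • A, ι · τ φ τ⁻¹)`, `ι ∈ I_P`;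
* `s56ce_frob_cyc`     : a Frobenius at `q ≠ p` fixing the `p^m`-th roots of unity has `p^m ∣ q - 1`.
-/
import Mathlib
import Fermat.Prelude.Def_EllipticCurve_FrobeniusTrace
import Fermat.Agent.S55.LevelFields
import Fermat.Agent.S55.Places.Basic
import Fermat.Agent.DS.Pack.CycloMod
import Fermat.Agent.S56.Grp.Residual

set_option autoImplicit false

namespace Fermat.Agent.S56

open scoped Pointwise

local notation "Qb" => AlgebraicClosure ℚ
local notation "GQ" => (AlgebraicClosure ℚ ≃ₐ[ℚ] AlgebraicClosure ℚ)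

/-- The Prelude's Frobenius predicate, in terms of elements of `A`. -/
theorem s56ce_frob_iff (A : ValuationSubring Qb) (φ : GQ) (q : ℕ) :
    A.IsFrobeniusAt φ q ↔ φ • A = A ∧ ∀ a ∈ A, φ a - a ^ q ∈ A.nonunits := by
  constructor
  · rintro ⟨hφ, hres⟩
    refine ⟨hφ, fun a ha => ?_⟩
    have h1 := hres (IsLocalRing.residue A ⟨a, ha⟩)
    rw [← IsLocalRing.ResidueField.residue_smul, ← map_pow] at h1
    have h2 : (⟨φ, hφ⟩ : A.decompositionSubgroup ℚ) • (⟨a, ha⟩ : A) - (⟨a, ha⟩ : A) ^ q ∈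
        IsLocalRing.maximalIdeal A := by
      rw [← Ideal.Quotient.eq]; exact h1
    exact ValuationSubring.coe_mem_nonunits_iff.2 h2
  · rintro ⟨hφ, h⟩
    refine ⟨hφ, fun x => ?_⟩
    obtain ⟨⟨a, ha⟩, rfl⟩ := IsLocalRing.residue_surjective x
    rw [← IsLocalRing.ResidueField.residue_smul, ← map_pow]
    refine Ideal.Quotient.eq.2 ?_
    have h2 : (((⟨φ, hφ⟩ : A.decompositionSubgroup ℚ) • (⟨a, ha⟩ : A) - (⟨a, ha⟩ : A) ^ q : A) : Qb)
        ∈ A.nonunits := h a ha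
    exact ValuationSubring.coe_mem_nonunits_iff.1 h2

theorem s56ce_nonunits_sub (A : ValuationSubring Qb) {x y : Qb} (hx : x ∈ A.nonunits)
    (hy : y ∈ A.nonunits) : x - y ∈ A.nonunits := by
  rw [ValuationSubring.mem_nonunits_iff] at hx hy ⊢
  exact Valuation.map_sub_lt _ hx hy

theorem s56ce_mem_of_smul_eq (A : ValuationSubring Qb) {φ : GQ} (h : φ • A = A) {x : Qb}
    (hx : x ∈ A) : φ⁻¹ x ∈ A := by
  have h1 : x ∈ φ • A := by rw [h]; exact hx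
  obtain ⟨y, hy, rfl⟩ := h1
  have : φ⁻¹ ((MulSemiringAction.toRingHom GQ Qb φ) y) = y := φ.symm_apply_apply y
  rw [this]; exact hy

/-- Conjugates of Frobenius elements are Frobenius elements at the conjugate place. -/
theorem s56ce_frob_conj (A : ValuationSubring Qb) {φ : GQ} {q : ℕ} (h : A.IsFrobeniusAt φ q)
    (τ : GQ) : (τ • A).IsFrobeniusAt (τ * φ * τ⁻¹) q := by
  rw [s56ce_frob_iff] at h ⊢
  obtain ⟨h1, h2⟩ := h
  refine ⟨?_, fun a ha => ?_⟩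
  · rw [mul_smul, mul_smul, inv_smul_smul, h1]
  · obtain ⟨y, hy, rfl⟩ := ha
    have h3 := Fermat.Agent.S55.tl_map_mem_nonunits_smul (K := ℚ) A τ (h2 y hy)
    have e : (τ * φ * τ⁻¹) ((MulSemiringAction.toRingHom GQ Qb τ) y) -
        (MulSemiringAction.toRingHom GQ Qb τ) y ^ q = τ (φ y - y ^ q) := by
      rw [map_sub, map_pow]
      have : τ⁻¹ ((MulSemiringAction.toRingHom GQ Qb τ) y) = y := τ.symm_apply_apply y
      show τ (φ (τ⁻¹ ((MulSemiringAction.toRingHom GQ Qb τ) y))) - _ = _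
      rw [this]; rfl
    rw [e]; exact h3

/-- Two Frobenius elements at the same place differ by an element of the inertia group. -/
theorem s56ce_frob_inertia (A : ValuationSubring Qb) {φ φ' : GQ} {q : ℕ}
    (h : A.IsFrobeniusAt φ q) (h' : A.IsFrobeniusAt φ' q) :
    φ' * φ⁻¹ ∈ A.inertiaSubgroupIn ℚ := by
  rw [Fermat.Agent.S55.tl_mem_inertiaSubgroupIn_iff]
  rw [s56ce_frob_iff] at h h'
  have hinv : φ⁻¹ • A = A := by rw [inv_smul_eq_iff, h.1]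
  refine ⟨by rw [mul_smul, hinv, h'.1], fun x hx => ?_⟩
  have hy : φ⁻¹ x ∈ A := s56ce_mem_of_smul_eq A h.1 hx
  have e1 := h'.2 _ hy
  have e2 := h.2 _ hy
  have e3 : φ (φ⁻¹ x) = x := φ.apply_symm_apply x
  have e : (φ' * φ⁻¹) x - x = (φ' (φ⁻¹ x) - (φ⁻¹ x) ^ q) - (φ (φ⁻¹ x) - (φ⁻¹ x) ^ q) := by
    rw [e3]
    show φ' (φ⁻¹ x) - x = _
    ring
  rw [e]
  exact s56ce_nonunits_sub A e1 e2

/-- Every Frobenius pair over `q` is obtained from a given one by conjugation and inertia. -/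
theorem s56ce_frob_all {q : ℕ} (hq : q.Prime) (A : ValuationSubring Qb) (hA : A.LiesOverPrime q)
    {φ : GQ} (hφ : A.IsFrobeniusAt φ q) (P : ValuationSubring Qb) (hP : P.LiesOverPrime q)
    {φ' : GQ} (hφ' : P.IsFrobeniusAt φ' q) :
    ∃ τ ι : GQ, ι ∈ P.inertiaSubgroupIn ℚ ∧ φ' = ι * (τ * φ * τ⁻¹) := by
  obtain ⟨τ, rfl⟩ := Fermat.Agent.S55.pl_exists_smul_eq hq hA hP
  refine ⟨τ, φ' * (τ * φ * τ⁻¹)⁻¹, s56ce_frob_inertia _ (s56ce_frob_conj A hφ τ) hφ', ?_⟩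
  rw [inv_mul_cancel_right]

/-- A Frobenius element at `q ≠ p` which fixes the `p^m`-th roots of unity: `q ≡ 1 mod p^m`. -/
theorem s56ce_frob_cyc {p : ℕ} (hp : p.Prime) {q : ℕ} (hq : q.Prime) (hqp : q ≠ p) (m : ℕ)
    (A : ValuationSubring Qb) (hA : A.LiesOverPrime q) {φ : GQ} (hφ : A.IsFrobeniusAt φ q)
    (hcyc : φ ∈ s56g_cyc (p ^ m)) : p ^ m ∣ q - 1 := by
  have : NeZero (p ^ m) := ⟨pow_ne_zero _ hp.ne_zero⟩
  obtain ⟨ζ, hζ⟩ := HasEnoughRootsOfUnity.exists_primitiveRoot Qb (p ^ m)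
  have hqn : ¬ q ∣ p ^ m := fun h =>
    hqp ((Nat.prime_dvd_prime_iff_eq hq hp).1 (hq.dvd_of_dvd_pow h))
  have h1 : φ ζ = ζ ^ q :=
    Fermat.Agent.DS.dspk_cyc_frob_root (p ^ m) hq hqn A hA φ hφ hζ.pow_eq_one
  have h2 : φ ζ = ζ := hcyc ζ hζ.pow_eq_one
  have hζ0 : ζ ≠ 0 := hζ.ne_zero (NeZero.ne _)
  have h3 : ζ ^ (q - 1) = 1 := by
    have h4 : ζ ^ (q - 1) * ζ = 1 * ζ := by
      rw [← pow_succ, Nat.sub_add_cancel hq.one_le, ← h1, h2, one_mul]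
    exact mul_right_cancel₀ hζ0 h4
  exact hζ.dvd_of_pow_eq_one _ h3

end Fermat.Agent.S56
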