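/-
S56 / [CHEB] (helper15, prefix `s56ce_`), part 2: from a group element to a Taylor–Wiles prime.

`s56ce_one`: let `σ₀ ∈ G_{ℚ(ζ_{p^{n+1}})}` be such that `ρbar(σ₀)` has distinct eigenvalues in `k` and
a (level-constant, unramified outside `T`) cocycle `ψ : G_ℚ → M` is not a coboundary at `σ₀`
(`ψ σ₀ ∉ (σ₀ - 1) M`).  Then there is a prime `q ∉ T`, `q ≡ 1 mod p^{n+1}`, such that for EVERY
place `P | q` and EVERY Frobenius element `φ` at `P`: `ρbar(φ)` has distinct eigenvalues in `k`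
and `ψ φ ∉ (φ - 1) M`.

Only the weak (cyclic subgroup) form `wcz_main` of Chebotarev is used: `⟨φ|L⟩ = ⟨σ₀|L⟩`.
-/
import Mathlib
import Fermat.Prelude.Def_GaloisRep_Residual
import Fermat.Agent.WC.Plus
import Fermat.Agent.S56.ChebEl.Frob

set_option autoImplicit false
set_option linter.style.haveILetI false

namespace Fermat.Agent.S56

open Polynomial Module
open scoped Pointwise

local notation "Qb" => AlgebraicClosure ℚ
local notation "GQ" => (AlgebraicClosure ℚ ≃ₐ[ℚ] AlgebraicClosure ℚ)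

/-! ### Linear algebra: regular elements and powers -/

/-- If `T = U ^ a`, `U = T ^ b` on a plane and `T` has two distinct eigenvalues in `k`, so has `U`. -/
theorem s56ce_reg_pow {k V : Type*} [Field k] [AddCommGroup V] [Module k V] [Module.Finite k V]
    (h2 : finrank k V = 2) (T U : Module.End k V) (a b : ℕ) (hTU : T = U ^ a) (hUT : U = T ^ b)
    {α β : k} (hαβ : α ≠ β) (hT : LinearMap.charpoly T = (X - C α) * (X - C β)) :
    ∃ α' β' : k, α' ≠ β' ∧ LinearMap.charpoly U = (X - C α') * (X - C β') := by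
  have hα : T.HasEigenvalue α := by
    rw [Module.End.hasEigenvalue_iff_isRoot_charpoly, hT]; simp
  have hβ : T.HasEigenvalue β := by
    rw [Module.End.hasEigenvalue_iff_isRoot_charpoly, hT]; simp
  obtain ⟨v, hv⟩ := hα.exists_hasEigenvector
  obtain ⟨w, hw⟩ := hβ.exists_hasEigenvector
  have hUv : U.HasEigenvector (α ^ b) v := by
    refine ⟨?_, hv.2⟩
    rw [Module.End.mem_eigenspace_iff, hUT]
    exact hv.pow_apply b
  have hUw : U.HasEigenvector (β ^ b) w := by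
    refine ⟨?_, hw.2⟩
    rw [Module.End.mem_eigenspace_iff, hUT]
    exact hw.pow_apply b
  have hαa : α = (α ^ b) ^ a := by
    have h1 : T v = α • v := Module.End.mem_eigenspace_iff.1 hv.1
    have h3 : T v = (α ^ b) ^ a • v := by rw [hTU]; exact hUv.pow_apply a
    have h4 : (α - (α ^ b) ^ a) • v = 0 := by rw [sub_smul, ← h1, ← h3, sub_self]
    rcases smul_eq_zero.1 h4 with h | h
    · exact sub_eq_zero.1 h
    · exact absurd h hv.2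
  have hβa : β = (β ^ b) ^ a := by
    have h1 : T w = β • w := Module.End.mem_eigenspace_iff.1 hw.1
    have h3 : T w = (β ^ b) ^ a • w := by rw [hTU]; exact hUw.pow_apply a
    have h4 : (β - (β ^ b) ^ a) • w = 0 := by rw [sub_smul, ← h1, ← h3, sub_self]
    rcases smul_eq_zero.1 h4 with h | h
    · exact sub_eq_zero.1 h
    · exact absurd h hw.2
  have hne : α ^ b ≠ β ^ b := by
    intro h
    apply hαβ
    rw [hαa, hβa, h]
  refine ⟨α ^ b, β ^ b, hne, ?_⟩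
  have hr1 : (LinearMap.charpoly U).IsRoot (α ^ b) :=
    (Module.End.hasEigenvalue_iff_isRoot_charpoly U _).1
      (Module.End.hasEigenvalue_of_hasEigenvector hUv)
  have hr2 : (LinearMap.charpoly U).IsRoot (β ^ b) :=
    (Module.End.hasEigenvalue_iff_isRoot_charpoly U _).1
      (Module.End.hasEigenvalue_of_hasEigenvector hUw)
  have hd1 : (X - C (α ^ b)) ∣ LinearMap.charpoly U := dvd_iff_isRoot.2 hr1
  have hd2 : (X - C (β ^ b)) ∣ LinearMap.charpoly U := dvd_iff_isRoot.2 hr2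
  have hcop : IsCoprime (X - C (α ^ b) : k[X]) (X - C (β ^ b)) :=
    Polynomial.isCoprime_X_sub_C_of_isUnit_sub (sub_ne_zero.2 hne).isUnit
  have hdvd : (X - C (α ^ b)) * (X - C (β ^ b)) ∣ LinearMap.charpoly U := hcop.mul_dvd hd1 hd2
  have hmon : ((X - C (α ^ b)) * (X - C (β ^ b)) : k[X]).Monic :=
    (monic_X_sub_C _).mul (monic_X_sub_C _)
  have hdeg : ((X - C (α ^ b)) * (X - C (β ^ b)) : k[X]).natDegree = 2 := by
    rw [(monic_X_sub_C _).natDegree_mul (monic_X_sub_C _), natDegree_X_sub_C, natDegree_X_sub_C]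
  refine Polynomial.eq_of_monic_of_dvd_of_natDegree_le hmon (LinearMap.charpoly_monic U) hdvd ?_
  rw [LinearMap.charpoly_natDegree, h2, hdeg]

/-- the characteristic polynomial is invariant under conjugation in a representation. -/
theorem s56ce_charpoly_conj {G k V : Type*} [Group G] [Field k] [AddCommGroup V] [Module k V]
    [Module.Finite k V] (ρ : G →* Module.End k V) (τ g : G) :
    LinearMap.charpoly (ρ (τ * g * τ⁻¹)) = LinearMap.charpoly (ρ g) := by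
  let e : V ≃ₗ[k] V := LinearEquiv.ofLinearMap (ρ τ) (ρ τ⁻¹)
    (by rw [← Module.End.mul_eq_comp, ← map_mul, mul_inv_cancel, map_one]; rfl)
    (by rw [← Module.End.mul_eq_comp, ← map_mul, inv_mul_cancel, map_one]; rfl)
  have h : ρ (τ * g * τ⁻¹) = e.conj (ρ g) := by
    rw [map_mul, map_mul]
    ext x
    rfl
  rw [h, LinearEquiv.charpoly_conj]

/-! ### Cocycles: being a coboundary at one element -/

section cocycle

variable {G : Type*} [Group G] {R : Type*} [CommRing R] {M : Type*} [AddCommGroup M] [Module R M]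
  (ρM : Representation R G M) (ψ : G → M)

/-- `ψ` is a coboundary at `g`: `ψ g ∈ (g - 1) M`. -/
def s56ce_Cob (g : G) : Prop := ∃ m : M, ψ g = ρM g m - m

variable {ρM ψ}

theorem s56ce_coc_one (hψ : ∀ g h, ψ (g * h) = ψ g + ρM g (ψ h)) : ψ 1 = 0 := by
  have h := hψ 1 1
  rw [mul_one, map_one, Module.End.one_apply] at h
  exact left_eq_add.1 h

theorem s56ce_cob_pow (hψ : ∀ g h, ψ (g * h) = ψ g + ρM g (ψ h)) {g : G}
    (h : s56ce_Cob ρM ψ g) (j : ℕ) : s56ce_Cob ρM ψ (g ^ j) := by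
  obtain ⟨m, hm⟩ := h
  refine ⟨m, ?_⟩
  induction j with
  | zero => rw [pow_zero, s56ce_coc_one hψ, map_one, Module.End.one_apply, sub_self]
  | succ j ih =>
    rw [pow_succ, hψ, ih, hm, map_mul, Module.End.mul_apply, map_sub]
    abel

theorem s56ce_cob_of_conj (hψ : ∀ g h, ψ (g * h) = ψ g + ρM g (ψ h)) {g τ : G}
    (h : s56ce_Cob ρM ψ (τ * g * τ⁻¹)) : s56ce_Cob ρM ψ g := by
  obtain ⟨m, hm⟩ := h
  have hinv : ψ τ⁻¹ = - ρM τ⁻¹ (ψ τ) := by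
    have h1 := hψ τ⁻¹ τ
    rw [inv_mul_cancel, s56ce_coc_one hψ] at h1
    exact eq_neg_of_add_eq_zero_left h1.symm
  have hττ : ∀ x : M, ρM τ⁻¹ (ρM τ x) = x := fun x => by
    rw [← Module.End.mul_apply, ← map_mul, inv_mul_cancel, map_one, Module.End.one_apply]
  refine ⟨ρM τ⁻¹ (m + ψ τ), ?_⟩
  have h1 : ψ (τ * g * τ⁻¹) = ψ τ + ρM τ (ψ g) - ρM (τ * g * τ⁻¹) (ψ τ) := by
    rw [hψ (τ * g) τ⁻¹, hψ τ g, hinv, map_neg]
    have : ρM (τ * g) (ρM τ⁻¹ (ψ τ)) = ρM (τ * g * τ⁻¹) (ψ τ) := by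
      rw [← Module.End.mul_apply, ← map_mul]
    rw [this]; abel
  have h2 : ρM τ (ψ g) = ρM (τ * g * τ⁻¹) (m + ψ τ) - (m + ψ τ) := by
    rw [map_add, ← sub_eq_zero]
    have h3 : ψ τ + ρM τ (ψ g) - ρM (τ * g * τ⁻¹) (ψ τ) = ρM (τ * g * τ⁻¹) m - m := by
      rw [← h1, hm]
    rw [← sub_eq_zero] at h3
    rw [← h3]; abel
  have h4 : ψ g = ρM τ⁻¹ (ρM τ (ψ g)) := (hττ _).symm
  rw [h4, h2, map_sub]
  congr 1
  rw [← Module.End.mul_apply, ← Module.End.mul_apply, ← map_mul, ← map_mul]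
  congr 2
  group

theorem s56ce_cob_mul_right {g u : G} (hu1 : ρM u = 1) (hu2 : ψ (g * u) = ψ g) :
    s56ce_Cob ρM ψ (g * u) ↔ s56ce_Cob ρM ψ g := by
  unfold s56ce_Cob
  rw [hu2, map_mul, hu1, mul_one]

theorem s56ce_cob_mul_left (hψ : ∀ g h, ψ (g * h) = ψ g + ρM g (ψ h)) {g ι : G}
    (hι1 : ρM ι = 1) (hι2 : ψ ι = 0) :
    s56ce_Cob ρM ψ (ι * g) ↔ s56ce_Cob ρM ψ g := by
  unfold s56ce_Cob
  rw [hψ, hι2, zero_add, map_mul, hι1, one_mul, Module.End.one_apply]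

end cocycle

/-! ### The Chebotarev step -/

/-- **From a group element to a Taylor–Wiles prime**, general form (the cocycle clause is an
implication, so that `ψ = 0` is allowed). -/
theorem s56ce_one_gen {k : Type} [Field k] (ρbar : ResidualGaloisRep k)
    (p : ℕ) [Fact p.Prime] (n : ℕ) (T : Finset ℕ) (hpT : p ∈ T)
    (hur : ∀ q : ℕ, q.Prime → q ∉ T → ρbar.IsUnramifiedAt q)
    {R : Type*} [CommRing R] {M : Type*} [AddCommGroup M] [Module R M]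
    (ρM : Representation R GQ M)
    (hMlev : ∃ F : IntermediateField ℚ Qb, FiniteDimensional ℚ F ∧
      ∀ s ∈ F.fixingSubgroup, ρM s = 1)
    (hMur : ∀ q : ℕ, q.Prime → q ∉ T → ∀ A : ValuationSubring Qb, A.LiesOverPrime q →
      ∀ s ∈ A.inertiaSubgroupIn ℚ, ρM s = 1)
    (ψ : GQ → M) (hψ : ∀ g h, ψ (g * h) = ψ g + ρM g (ψ h))
    (hψlev : ∃ F : IntermediateField ℚ Qb, FiniteDimensional ℚ F ∧
      ∀ g s, s ∈ F.fixingSubgroup → ψ (g * s) = ψ g)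
    (hψur : ∀ q : ℕ, q.Prime → q ∉ T → ∀ A : ValuationSubring Qb, A.LiesOverPrime q →
      ∀ s ∈ A.inertiaSubgroupIn ℚ, ψ s = 0)
    (σ₀ : GQ) (hcyc : σ₀ ∈ s56g_cyc (p ^ (n + 1)))
    (hreg : ∃ α β : k, α ≠ β ∧ LinearMap.charpoly (ρbar.ρ σ₀) = (X - C α) * (X - C β)) :
    ∃ q : ℕ, q.Prime ∧ q ∉ T ∧ p ^ (n + 1) ∣ q - 1 ∧
      ∀ P : ValuationSubring Qb, P.LiesOverPrime q → ∀ φ : GQ, P.IsFrobeniusAt φ q →
        (∃ α β : k, α ≠ β ∧ LinearMap.charpoly (ρbar.ρ φ) = (X - C α) * (X - C β)) ∧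
          (¬ s56ce_Cob ρM ψ σ₀ → ¬ s56ce_Cob ρM ψ φ) := by
  classical
  have hp : p.Prime := Fact.out
  obtain ⟨Fρ, hFρ, hρ1⟩ := ρbar.factorsThroughFiniteLevel
  obtain ⟨FM, hFM, hM1⟩ := hMlev
  obtain ⟨Fψ, hFψ, hψ1⟩ := hψlev
  have hne : NeZero (p ^ (n + 1)) := ⟨pow_ne_zero _ hp.ne_zero⟩
  obtain ⟨ζ, hζ⟩ := HasEnoughRootsOfUnity.exists_primitiveRoot Qb (p ^ (n + 1))
  let Fζ : IntermediateField ℚ Qb := IntermediateField.adjoin ℚ {ζ}
  haveI : Algebra.IsAlgebraic ℚ Qb := AlgebraicClosure.isAlgebraic ℚ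
  haveI hFζ : FiniteDimensional ℚ Fζ :=
    IntermediateField.adjoin.finiteDimensional (Algebra.IsIntegral.isIntegral (R := ℚ) ζ)
  haveI := hFρ
  haveI := hFM
  haveI := hFψ
  let L₀ : IntermediateField ℚ Qb := Fρ ⊔ FM ⊔ Fψ ⊔ Fζ
  haveI h12 : FiniteDimensional ℚ ↥(Fρ ⊔ FM) := IntermediateField.finiteDimensional_sup Fρ FM
  haveI h123 : FiniteDimensional ℚ ↥(Fρ ⊔ FM ⊔ Fψ) :=
    IntermediateField.finiteDimensional_sup (Fρ ⊔ FM) Fψ
  haveI hL₀fin : FiniteDimensional ℚ ↥L₀ :=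
    IntermediateField.finiteDimensional_sup (Fρ ⊔ FM ⊔ Fψ) Fζ
  haveI : IsAlgClosure ℚ Qb := ⟨inferInstance, inferInstance⟩
  haveI : Normal ℚ Qb := IsAlgClosure.normal ℚ Qb
  let L : IntermediateField ℚ Qb := IntermediateField.normalClosure ℚ ↥L₀ Qb
  haveI hLfin : FiniteDimensional ℚ ↥L := normalClosure.is_finiteDimensional ℚ _ Qb
  haveI hLnorm : Normal ℚ ↥L := normalClosure.normal ℚ _ Qb
  have hL₀L : L₀ ≤ L := IntermediateField.le_normalClosure L₀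
  have hρL : Fρ ≤ L := (le_sup_left.trans (le_sup_left.trans le_sup_left)).trans hL₀L
  have hML : FM ≤ L := (le_sup_right.trans (le_sup_left.trans le_sup_left)).trans hL₀L
  have hψL : Fψ ≤ L := (le_sup_right.trans le_sup_left).trans hL₀L
  have hζL : Fζ ≤ L := le_sup_right.trans hL₀L
  -- what fixing `L` gives
  have fixρ : ∀ u : GQ, (∀ x ∈ L, u x = x) → ρbar.ρ u = 1 := fun u hu =>
    hρ1 u fun x hx => hu x (hρL hx)
  have fixM : ∀ u : GQ, (∀ x ∈ L, u x = x) → ρM u = 1 := fun u hu =>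
    hM1 u ((IntermediateField.mem_fixingSubgroup_iff _ _).2 fun x hx => hu x (hML hx))
  have fixψ : ∀ u : GQ, (∀ x ∈ L, u x = x) → ∀ g, ψ (g * u) = ψ g := fun u hu g =>
    hψ1 g u ((IntermediateField.mem_fixingSubgroup_iff _ _).2 fun x hx => hu x (hψL hx))
  have rootL : ∀ μ : Qb, μ ^ (p ^ (n + 1)) = 1 → μ ∈ L := by
    intro μ hμ
    obtain ⟨i, -, rfl⟩ := hζ.eq_pow_of_pow_eq_one hμ
    exact pow_mem (hζL (IntermediateField.mem_adjoin_simple_self ℚ ζ)) i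
  -- Chebotarev
  obtain ⟨ℓ, A, φ, a, b, hℓ, hℓT, hA, hφ, ha, hb⟩ := Fermat.Agent.WC.wcz_main L T σ₀
  have hℓp : ℓ ≠ p := fun h => hℓT (h ▸ hpT)
  -- `σ₀ = φ ^ a * u`, `φ = σ₀ ^ b * w` with `u`, `w` fixing `L`
  have hu : ∀ x ∈ L, ((φ ^ a)⁻¹ * σ₀) x = x := by
    intro x hx
    show (φ ^ a)⁻¹ (σ₀ x) = x
    rw [← ha x hx]
    exact (φ ^ a).symm_apply_apply x
  have hw : ∀ x ∈ L, ((σ₀ ^ b)⁻¹ * φ) x = x := by
    intro x hx
    show (σ₀ ^ b)⁻¹ (φ x) = x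
    rw [hb x hx]
    exact (σ₀ ^ b).symm_apply_apply x
  have eσ : σ₀ = φ ^ a * ((φ ^ a)⁻¹ * σ₀) := by group
  have eφ : φ = σ₀ ^ b * ((σ₀ ^ b)⁻¹ * φ) := by group
  -- `φ` fixes the `p^(n+1)`-th roots of unity
  have hφcyc : φ ∈ s56g_cyc (p ^ (n + 1)) := by
    intro μ hμ
    rw [hb μ (rootL μ hμ)]
    exact (s56g_cyc (p ^ (n + 1))).pow_mem hcyc b μ hμ
  have hdvd : p ^ (n + 1) ∣ ℓ - 1 := s56ce_frob_cyc hp hℓ hℓp (n + 1) A hA hφ hφcyc
  -- `ρbar φ` is regular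
  have hρσ : ρbar.ρ σ₀ = ρbar.ρ φ ^ a := by
    conv_lhs => rw [eσ]
    rw [map_mul, fixρ _ hu, mul_one, map_pow]
  have hρφ : ρbar.ρ φ = ρbar.ρ σ₀ ^ b := by
    conv_lhs => rw [eφ]
    rw [map_mul, fixρ _ hw, mul_one, map_pow]
  have hregφ : ∃ α β : k, α ≠ β ∧ LinearMap.charpoly (ρbar.ρ φ) = (X - C α) * (X - C β) := by
    obtain ⟨α, β, hαβ, hch⟩ := hreg
    exact s56ce_reg_pow ρbar.finrank_eq (ρbar.ρ σ₀) (ρbar.ρ φ) a b hρσ hρφ hαβ hch
  -- `ψ` is not a coboundary at `φ`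
  have hnzφ : ¬ s56ce_Cob ρM ψ σ₀ → ¬ s56ce_Cob ρM ψ φ := by
    intro hnz h
    apply hnz
    rw [eσ, s56ce_cob_mul_right (fixM _ hu) (fixψ _ hu _)]
    exact s56ce_cob_pow hψ h a
  refine ⟨ℓ, hℓ, hℓT, hdvd, fun P hP φ' hφ' => ?_⟩
  obtain ⟨τ, ι, hι, rfl⟩ := s56ce_frob_all hℓ A hA hφ P hP hφ'
  have hι1 : ρbar.ρ ι = 1 := hur ℓ hℓ hℓT P hP ι hι
  have hι2 : ρM ι = 1 := hMur ℓ hℓ hℓT P hP ι hι
  have hι3 : ψ ι = 0 := hψur ℓ hℓ hℓT P hP ι hι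
  constructor
  · obtain ⟨α', β', hne', hch⟩ := hregφ
    refine ⟨α', β', hne', ?_⟩
    rw [map_mul, hι1, one_mul, s56ce_charpoly_conj, hch]
  · intro hnz
    rw [s56ce_cob_mul_left hψ hι2 hι3]
    exact fun h => hnzφ hnz (s56ce_cob_of_conj hψ h)

/-- **From a group element to a Taylor–Wiles prime.** -/
theorem s56ce_one {k : Type} [Field k] (ρbar : ResidualGaloisRep k)
    (p : ℕ) [Fact p.Prime] (n : ℕ) (T : Finset ℕ) (hpT : p ∈ T)
    (hur : ∀ q : ℕ, q.Prime → q ∉ T → ρbar.IsUnramifiedAt q)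
    {R : Type*} [CommRing R] {M : Type*} [AddCommGroup M] [Module R M]
    (ρM : Representation R GQ M)
    (hMlev : ∃ F : IntermediateField ℚ Qb, FiniteDimensional ℚ F ∧
      ∀ s ∈ F.fixingSubgroup, ρM s = 1)
    (hMur : ∀ q : ℕ, q.Prime → q ∉ T → ∀ A : ValuationSubring Qb, A.LiesOverPrime q →
      ∀ s ∈ A.inertiaSubgroupIn ℚ, ρM s = 1)
    (ψ : GQ → M) (hψ : ∀ g h, ψ (g * h) = ψ g + ρM g (ψ h))
    (hψlev : ∃ F : IntermediateField ℚ Qb, FiniteDimensional ℚ F ∧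
      ∀ g s, s ∈ F.fixingSubgroup → ψ (g * s) = ψ g)
    (hψur : ∀ q : ℕ, q.Prime → q ∉ T → ∀ A : ValuationSubring Qb, A.LiesOverPrime q →
      ∀ s ∈ A.inertiaSubgroupIn ℚ, ψ s = 0)
    (σ₀ : GQ) (hcyc : σ₀ ∈ s56g_cyc (p ^ (n + 1)))
    (hreg : ∃ α β : k, α ≠ β ∧ LinearMap.charpoly (ρbar.ρ σ₀) = (X - C α) * (X - C β))
    (hnz : ¬ s56ce_Cob ρM ψ σ₀) :
    ∃ q : ℕ, q.Prime ∧ q ∉ T ∧ p ^ (n + 1) ∣ q - 1 ∧
      ∀ P : ValuationSubring Qb, P.LiesOverPrime q → ∀ φ : GQ, P.IsFrobeniusAt φ q →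
        (∃ α β : k, α ≠ β ∧ LinearMap.charpoly (ρbar.ρ φ) = (X - C α) * (X - C β)) ∧
          ¬ s56ce_Cob ρM ψ φ := by
  obtain ⟨q, hq, hqT, hdvd, h⟩ :=
    s56ce_one_gen ρbar p n T hpT hur ρM hMlev hMur ψ hψ hψlev hψur σ₀ hcyc hreg
  exact ⟨q, hq, hqT, hdvd, fun P hP φ hφ => ⟨(h P hP φ hφ).1, (h P hP φ hφ).2 hnz⟩⟩

/-- **Padding**: a regular element of `G_{ℚ(ζ_{p^{n+1}})}` gives a Taylor–Wiles prime outside any
finite set. -/
theorem s56ce_one_pad {k : Type} [Field k] (ρbar : ResidualGaloisRep k)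
    (p : ℕ) [Fact p.Prime] (n : ℕ) (T : Finset ℕ) (hpT : p ∈ T)
    (hur : ∀ q : ℕ, q.Prime → q ∉ T → ρbar.IsUnramifiedAt q)
    (σ₀ : GQ) (hcyc : σ₀ ∈ s56g_cyc (p ^ (n + 1)))
    (hreg : ∃ α β : k, α ≠ β ∧ LinearMap.charpoly (ρbar.ρ σ₀) = (X - C α) * (X - C β)) :
    ∃ q : ℕ, q.Prime ∧ q ∉ T ∧ p ^ (n + 1) ∣ q - 1 ∧
      ∀ P : ValuationSubring Qb, P.LiesOverPrime q → ∀ φ : GQ, P.IsFrobeniusAt φ q →
        ∃ α β : k, α ≠ β ∧ LinearMap.charpoly (ρbar.ρ φ) = (X - C α) * (X - C β) := by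
  obtain ⟨q, hq, hqT, hdvd, h⟩ := s56ce_one_gen ρbar p n T hpT hur (R := ℤ) (M := ℤ)
    (1 : Representation ℤ GQ ℤ) ⟨⊥, inferInstance, fun _ _ => rfl⟩ (fun _ _ _ _ _ _ _ => rfl)
    (fun _ => 0) (by intro g h; simp)
    ⟨⊥, inferInstance, fun _ _ _ => rfl⟩ (fun _ _ _ _ _ _ _ => rfl) σ₀ hcyc hreg
  exact ⟨q, hq, hqT, hdvd, fun P hP φ hφ => (h P hP φ hφ).1⟩

end Fermat.Agent.S56
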