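/-
S56 / [CHEB] (helper15, prefix `s56ce_`), part 4: the Chebotarev selection in the [GW] vocabulary.

`s56ce_gw`: let `D ≤ continuousH1S S M` be a finite-dimensional space of classes
(`M : Rep (ZMod p) G_ℚ` finite, smooth, unramified outside `S`).  Assume the group-theoretic
selection `hsel`: every level-constant cocycle `c` with nonzero class in `D` is NOT a coboundary at
some `σ₀ ∈ G_{ℚ(ζ_{p^{n+1}})}` with `ρbar(σ₀)` regular.  Then for every `r ≥ dim D` there are `r`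
distinct Taylor–Wiles primes `qv i ∉ S` (`≡ 1 mod p^{n+1}`, Frobenius regular at ALL places) with
`D ⊓ ⨅ i, ker (s56gw_loc M (qv i)) = ⊥`.
-/
import Mathlib
import Fermat.Agent.S56.GW.Seams
import Fermat.Agent.S56.GW.Unr.Main
import Fermat.Agent.S55.KernelField
import Fermat.Agent.JT3.ES.FrobExists
import Fermat.Agent.S56.ChebEl.One
import Fermat.Agent.S56.ChebEl.Many

set_option autoImplicit false
set_option linter.style.haveILetI false

open CategoryTheory Module groupCohomology ExtCitation Polynomial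

namespace Fermat.Agent.S56

local notation "Qb" => AlgebraicClosure ℚ
local notation "GQ" => (AlgebraicClosure ℚ ≃ₐ[ℚ] AlgebraicClosure ℚ)

/-- the regularity clause of the frozen S56 at the prime `q`. -/
def s56ce_RegAt {k : Type} [Field k] (ρbar : ResidualGaloisRep k) (q : ℕ) : Prop :=
  ∀ P : ValuationSubring Qb, P.LiesOverPrime q → ∀ φ : GQ, P.IsFrobeniusAt φ q →
    ∃ α β : k, α ≠ β ∧ LinearMap.charpoly (ρbar.ρ φ) = (X - C α) * (X - C β)

/-- the regularity of a group element. -/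
def s56ce_Reg {k : Type} [Field k] (ρbar : ResidualGaloisRep k) (σ : GQ) : Prop :=
  ∃ α β : k, α ≠ β ∧ LinearMap.charpoly (ρbar.ρ σ) = (X - C α) * (X - C β)

variable {p : ℕ} [Fact p.Prime]

/-- A class which is locally trivial at `q` has all its cocycles coboundaries at a Frobenius
element of the place `primeLocalPlace q`. -/
theorem s56ce_cob_of_loc_zero (M : Rep.{0} (ZMod p) GQ) (q : Nat.Primes) (c : cocycles₁ M)
    (h : s56gw_loc M q ((H1π M).hom c) = 0) :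
    ∃ (P : ValuationSubring Qb) (φ : GQ), P.LiesOverPrime (q : ℕ) ∧ P.IsFrobeniusAt φ (q : ℕ) ∧
      s56ce_Cob M.ρ (c : GQ → M) φ := by
  obtain ⟨m, hm⟩ := s56gwu_loc_zero M q c h
  obtain ⟨φ, hφ⟩ := Fermat.Agent.JT3.fex_exists_isFrobeniusAt q.2 (primeLocalPlace q)
    (s56gwu_place_liesOver q)
  exact ⟨primeLocalPlace q, φ, s56gwu_place_liesOver q, hφ, m,
    hm φ hφ.mem_decompositionSubgroup⟩

/-- **[CHEB] in the [GW] vocabulary**, modulo the group-theoretic selection `hsel`. -/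
theorem s56ce_gw {k : Type} [Field k] (ρbar : ResidualGaloisRep k) (n : ℕ)
    (S : Finset Nat.Primes) (hpS : pPrime p ∈ S)
    (hur : ∀ q : Nat.Primes, q ∉ S → ρbar.IsUnramifiedAt (q : ℕ))
    (M : Rep.{0} (ZMod p) GQ) [FiniteDimensional (ZMod p) M]
    (hsm : s56gw_Smooth M) (hMur : s56gw_UnrOut S M)
    (D : Submodule (ZMod p) (H1 M)) (hD : D ≤ continuousH1S S M) [FiniteDimensional (ZMod p) D]
    (hreg0 : ∃ σ₀ ∈ s56g_cyc (p ^ (n + 1)), s56ce_Reg ρbar σ₀)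
    (hsel : ∀ c : cocycles₁ M, IsLevelConstantS₁ S (c : GQ → M) → (H1π M).hom c ∈ D →
      (H1π M).hom c ≠ 0 →
      ∃ σ₀ ∈ s56g_cyc (p ^ (n + 1)), s56ce_Reg ρbar σ₀ ∧ ¬ s56ce_Cob M.ρ (c : GQ → M) σ₀)
    (r : ℕ) (hr : finrank (ZMod p) D ≤ r) (T0 : Finset ℕ) :
    ∃ qv : Fin r → Nat.Primes, Function.Injective qv ∧
      (∀ i, qv i ∉ S ∧ ((qv i : ℕ) ∉ T0) ∧ p ^ (n + 1) ∣ (qv i : ℕ) - 1 ∧
        s56ce_RegAt ρbar (qv i : ℕ)) ∧
      D ⊓ ⨅ i, LinearMap.ker (s56gw_loc M (qv i)) = ⊥ := by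
  classical
  -- the finite set of natural numbers to avoid
  let S' : Finset ℕ := S.image (fun q : Nat.Primes => (q : ℕ))
  have hS' : ∀ q : Nat.Primes, (q : ℕ) ∉ S' → q ∉ S := fun q hq hqS =>
    hq (Finset.mem_image_of_mem _ hqS)
  have hpS' : p ∈ S' := Finset.mem_image.2 ⟨pPrime p, hpS, rfl⟩
  have hur' : ∀ T' : Finset ℕ, ∀ q : ℕ, q.Prime → q ∉ S' ∪ T' → ρbar.IsUnramifiedAt q :=
    fun T' q hq hqT => hur ⟨q, hq⟩ (hS' ⟨q, hq⟩ fun h => hqT (Finset.mem_union_left _ h))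
  have hMlev := Fermat.Agent.S55.tl_exists_finite_level_trivial M hsm
  have hMur' : ∀ T' : Finset ℕ, ∀ q : ℕ, q.Prime → q ∉ S' ∪ T' →
      ∀ A : ValuationSubring Qb, A.LiesOverPrime q → ∀ s ∈ A.inertiaSubgroupIn ℚ, M.ρ s = 1 :=
    fun T' q hq hqT A hA s hs =>
      hMur ⟨q, hq⟩ (hS' ⟨q, hq⟩ fun h => hqT (Finset.mem_union_left _ h)) A hA s hs
  -- the admissible primes and the local kernels
  let Good : ℕ → Prop := fun q =>
    q.Prime ∧ q ∉ S' ∧ q ∉ T0 ∧ p ^ (n + 1) ∣ q - 1 ∧ s56ce_RegAt ρbar q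
  let Loc : ℕ → Submodule (ZMod p) ↥D := fun q =>
    if h : q.Prime then (LinearMap.ker (s56gw_loc M ⟨q, h⟩)).comap D.subtype else ⊤
  have hpad : ∀ T : Finset ℕ, ∃ q, q ∉ T ∧ Good q := by
    intro T
    obtain ⟨σ₀, hcyc, hreg⟩ := hreg0
    obtain ⟨q, hq, hqT, hdvd, h⟩ := s56ce_one_pad ρbar p n (S' ∪ (T ∪ T0))
      (Finset.mem_union_left _ hpS') (hur' _) σ₀ hcyc hreg
    simp only [Finset.mem_union, not_or] at hqT
    exact ⟨q, hqT.2.1, hq, hqT.1, hqT.2.2, hdvd, h⟩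
  have hsel' : ∀ d : ↥D, d ≠ 0 → ∀ T : Finset ℕ, ∃ q, q ∉ T ∧ Good q ∧ d ∉ Loc q := by
    rintro ⟨y, hy⟩ hd T
    have hy0 : y ≠ 0 := fun h => hd (Subtype.ext h)
    obtain ⟨c, hc, rfl⟩ := (mem_continuousH1S_iff S M y).1 (hD hy)
    obtain ⟨σ₀, hcyc, hreg, hnz⟩ := hsel c hc hy hy0
    have hcoc : ∀ g h : GQ, (c : GQ → M) (g * h) = (c : GQ → M) g + M.ρ g ((c : GQ → M) h) := by
      intro g h
      rw [(mem_cocycles₁_iff (c : GQ → M)).1 c.2 g h, add_comm]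
    obtain ⟨F, hF, hconst⟩ := hc
    obtain ⟨q, hq, hqT, hdvd, h⟩ := s56ce_one ρbar p n (S' ∪ (T ∪ T0))
      (Finset.mem_union_left _ hpS') (hur' _) M.ρ hMlev (hMur' _) (c : GQ → M) hcoc
      ⟨F, hF.1, hconst⟩
      (fun q hq hqT A hA s hs => by
        have hsF : s ∈ F.fixingSubgroup :=
          hF.2 ⟨q, hq⟩ (hS' ⟨q, hq⟩ fun h => hqT (Finset.mem_union_left _ h)) A hA hs
        have := hconst 1 s hsF
        rw [one_mul, s56ce_coc_one hcoc] at this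
        exact this)
      σ₀ hcyc hreg hnz
    simp only [Finset.mem_union, not_or] at hqT
    refine ⟨q, hqT.2.1, ⟨hq, hqT.1, hqT.2.2, hdvd, fun P hP φ hφ => (h P hP φ hφ).1⟩, ?_⟩
    intro hmem
    have hmem' : (⟨(H1π M).hom c, hy⟩ : ↥D) ∈
        (LinearMap.ker (s56gw_loc M ⟨q, hq⟩)).comap D.subtype := by
      have : Loc q = (LinearMap.ker (s56gw_loc M ⟨q, hq⟩)).comap D.subtype := dif_pos hq
      rw [← this]; exact hmem
    have hloc : s56gw_loc M ⟨q, hq⟩ ((H1π M).hom c) = 0 := hmem'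
    obtain ⟨P, φ, hP, hφ, hcob⟩ := s56ce_cob_of_loc_zero M ⟨q, hq⟩ c hloc
    exact (h P hP φ hφ).2 hcob
  obtain ⟨qv, hinj, hgood, hker⟩ := s56ce_many Good Loc hpad hsel' r hr ∅
  refine ⟨fun i => (⟨qv i, (hgood i).2.1⟩ : Nat.Primes),
    fun i j hij => hinj (congrArg Subtype.val hij),
    fun i => ⟨hS' _ (hgood i).2.2.1, (hgood i).2.2.2.1, (hgood i).2.2.2.2.1,
      (hgood i).2.2.2.2.2⟩, ?_⟩
  rw [eq_bot_iff]
  intro y hy
  rw [Submodule.mem_inf, Submodule.mem_iInf] at hy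
  obtain ⟨hyD, hyker⟩ := hy
  have h0 : (⟨y, hyD⟩ : ↥D) = 0 := by
    refine hker ⟨y, hyD⟩ fun i => ?_
    have : Loc (qv i) = (LinearMap.ker (s56gw_loc M ⟨qv i, (hgood i).2.1⟩)).comap D.subtype :=
      dif_pos (hgood i).2.1
    rw [this]
    exact hyker i
  exact (Submodule.mem_bot _).2 (congrArg Subtype.val h0)

end Fermat.Agent.S56
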