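/-
S56 / [CHEB] (helper15, prefix `s56ce_`), part 5: the trace-pairing isomorphism
`(ad⁰ rb)^*(1) ≅ ad⁰ rb ⊗ det`.

`M := s56a_ad p rb` (trace-zero matrices over `k`, as a `ZMod p`-module, conjugation action),
`M' := s56gw_dual M = Hom_{𝔽_p}(M, 𝔽_p)(1)`.  The pairing `⟨A, m⟩ := Tr_{k/𝔽_p} (tr (A * m))` is
perfect on trace-zero matrices (`2 ≠ 0`), so every functional `f ∈ M'` is `⟨s56ce_dualIso f, ·⟩` for a
unique trace-zero matrix, and `s56ce_dualIso` intertwines `M'.ρ` with helper24's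
`s56g_twRep rb` (`g • A = det (rb g) • (rb g * A * rb g⁻¹)`) as soon as `det rb = χ_p`.
-/
import Mathlib
import Fermat.Agent.S56.Asm.Seams
import Fermat.Agent.S56.Grp.Select
import Fermat.Agent.S56.ChebEl.One

set_option autoImplicit false
set_option linter.unusedSectionVars false
set_option linter.style.haveILetI false

open CategoryTheory groupCohomology ExtCitation Module

namespace Fermat.Agent.S56

open Fermat.Agent.S53 Matrix

noncomputable section

local notation "GQ" => (AlgebraicClosure ℚ ≃ₐ[ℚ] AlgebraicClosure ℚ)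

variable {k : Type} [Field k] [Finite k] (p : ℕ) [Fact p.Prime] [Algebra (ZMod p) k]

/-! ### the trace form on trace-zero matrices -/

/-- a nonzero trace-zero matrix pairs nontrivially with a trace-zero matrix (`2 ≠ 0`). -/
theorem s56ce_tr_nondeg (h2 : (2 : k) ≠ 0) (A : Matrix (Fin 2) (Fin 2) k) (hA : A.trace = 0)
    (hA0 : A ≠ 0) : ∃ m : Matrix (Fin 2) (Fin 2) k, m.trace = 0 ∧ (A * m).trace ≠ 0 := by
  rw [Matrix.trace_fin_two] at hA
  by_cases hc : A 1 0 = 0
  · by_cases hb : A 0 1 = 0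
    · have ha : A 0 0 ≠ 0 := by
        intro ha
        apply hA0
        have hd : A 1 1 = 0 := by rw [ha, zero_add] at hA; exact hA
        ext i j
        fin_cases i <;> fin_cases j <;> simp [ha, hb, hc, hd]
      refine ⟨!![1, 0; 0, -1], by simp [Matrix.trace_fin_two], ?_⟩
      have hd : A 1 1 = - A 0 0 := eq_neg_of_add_eq_zero_right hA
      have : (A * !![1, 0; 0, -1]).trace = 2 * A 0 0 := by
        simp [Matrix.trace_fin_two, Matrix.mul_apply, Fin.sum_univ_two, hd]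
        ring
      rw [this]
      exact mul_ne_zero h2 ha
    · refine ⟨!![0, 0; 1, 0], by simp [Matrix.trace_fin_two], ?_⟩
      have : (A * !![0, 0; 1, 0]).trace = A 0 1 := by
        simp [Matrix.trace_fin_two, Matrix.mul_apply, Fin.sum_univ_two]
      rw [this]; exact hb
  · refine ⟨!![0, 1; 0, 0], by simp [Matrix.trace_fin_two], ?_⟩
    have : (A * !![0, 1; 0, 0]).trace = A 1 0 := by
      simp [Matrix.trace_fin_two, Matrix.mul_apply, Fin.sum_univ_two]
    rw [this]; exact hc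

/-- the `𝔽_p`-valued trace form `⟨A, m⟩ = Tr_{k/𝔽_p} (tr (A * m))`. -/
def s56ce_tf (A m : Matrix (Fin 2) (Fin 2) k) : ZMod p :=
  Algebra.trace (ZMod p) k (A * m).trace

theorem s56ce_tf_add_left (A A' m : Matrix (Fin 2) (Fin 2) k) :
    s56ce_tf p (A + A') m = s56ce_tf p A m + s56ce_tf p A' m := by
  unfold s56ce_tf
  rw [Matrix.add_mul, Matrix.trace_add, map_add]

theorem s56ce_tf_add_right (A m m' : Matrix (Fin 2) (Fin 2) k) :
    s56ce_tf p A (m + m') = s56ce_tf p A m + s56ce_tf p A m' := by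
  unfold s56ce_tf
  rw [Matrix.mul_add, Matrix.trace_add, map_add]

theorem s56ce_tf_smul_left (a : ZMod p) (A m : Matrix (Fin 2) (Fin 2) k) :
    s56ce_tf p (a • A) m = a * s56ce_tf p A m := by
  unfold s56ce_tf
  rw [Matrix.smul_mul, Matrix.trace_smul, map_smul, smul_eq_mul]

theorem s56ce_tf_smul_right (a : ZMod p) (A m : Matrix (Fin 2) (Fin 2) k) :
    s56ce_tf p A (a • m) = a * s56ce_tf p A m := by
  unfold s56ce_tf
  rw [Matrix.mul_smul, Matrix.trace_smul, map_smul, smul_eq_mul]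

/-- nondegeneracy of the `𝔽_p`-valued trace form on trace-zero matrices. -/
theorem s56ce_tf_nondeg (h2 : (2 : k) ≠ 0) (A : Matrix (Fin 2) (Fin 2) k) (hA : A.trace = 0)
    (h : ∀ m : Matrix (Fin 2) (Fin 2) k, m.trace = 0 → s56ce_tf p A m = 0) : A = 0 := by
  by_contra hA0
  obtain ⟨m, hm, ht⟩ := s56ce_tr_nondeg h2 A hA hA0
  obtain ⟨y, hy⟩ := Algebra.trace_surjective (ZMod p) k (1 : ZMod p)
  have h1 := h ((y / (A * m).trace) • m) (by rw [Matrix.trace_smul, hm, smul_zero])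
  unfold s56ce_tf at h1
  rw [Matrix.mul_smul, Matrix.trace_smul, smul_eq_mul, div_mul_cancel₀ _ ht, hy] at h1
  exact one_ne_zero h1

/-! ### the isomorphism -/

variable (rb : FramedResidual k)

/-- the pairing map `ad⁰ → (ad⁰)^*`, `A ↦ ⟨A, ·⟩`. -/
def s56ce_Phi : (s56t_ad0 p rb.toMonoidHom).V →ₗ[ZMod p]
    Module.Dual (ZMod p) (s56t_ad0 p rb.toMonoidHom).V :=
  LinearMap.mk₂ (ZMod p)
    (fun A m => s56ce_tf p (s56t_val p rb.toMonoidHom A) (s56t_val p rb.toMonoidHom m))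
    (fun _ _ _ => s56ce_tf_add_left p _ _ _)
    (fun a _ _ => s56ce_tf_smul_left p a _ _)
    (fun _ _ _ => s56ce_tf_add_right p _ _ _)
    (fun a _ _ => s56ce_tf_smul_right p a _ _)

theorem s56ce_Phi_apply (A m : (s56t_ad0 p rb.toMonoidHom).V) :
    s56ce_Phi p rb A m =
      s56ce_tf p (s56t_val p rb.toMonoidHom A) (s56t_val p rb.toMonoidHom m) := rfl

theorem s56ce_Phi_injective (h2 : (2 : k) ≠ 0) : Function.Injective (s56ce_Phi p rb) := by
  rw [← LinearMap.ker_eq_bot, LinearMap.ker_eq_bot']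
  intro A hA
  apply s56t_val_injective p rb.toMonoidHom
  rw [s56t_val_zero]
  refine s56ce_tf_nondeg p h2 _ (s56t_trace_val p _ A) fun m hm => ?_
  have := congrArg (fun f => f (s56t_mkV p rb.toMonoidHom m hm)) hA
  simpa [s56ce_Phi_apply] using this

theorem s56ce_Phi_bijective (h2 : (2 : k) ≠ 0) : Function.Bijective (s56ce_Phi p rb) := by
  have hinj := s56ce_Phi_injective p rb h2
  refine ⟨hinj, ?_⟩
  exact (LinearMap.injective_iff_surjective_of_finrank_eq_finrank
    (Subspace.dual_finrank_eq (K := ZMod p) (V := (s56t_ad0 p rb.toMonoidHom).V)).symm).1 hinj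

/-- the pairing equivalence `ad⁰ ≃ (ad⁰)^*`. -/
def s56ce_PhiEquiv (h2 : (2 : k) ≠ 0) : (s56t_ad0 p rb.toMonoidHom).V ≃ₗ[ZMod p]
    Module.Dual (ZMod p) (s56t_ad0 p rb.toMonoidHom).V :=
  LinearEquiv.ofBijective (s56ce_Phi p rb) (s56ce_Phi_bijective p rb h2)

/-- **the trace-pairing isomorphism** `M' = (ad⁰)^*(1) → M₂(k)`: `f ↦` the trace-zero matrix `A`
with `f = ⟨A, ·⟩`. -/
def s56ce_dualIso (h2 : (2 : k) ≠ 0) :
    (s56gw_dual (s56a_ad p rb)).V →ₗ[ZMod p] Matrix (Fin 2) (Fin 2) k :=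
  (Submodule.subtype (s56t_ad0Sub (k := k) p)) ∘ₗ (s56ce_PhiEquiv p rb h2).symm.toLinearMap

variable (h2 : (2 : k) ≠ 0)

/-- the element of `ad⁰` behind a functional. -/
def s56ce_pre (f : (s56gw_dual (s56a_ad p rb)).V) : (s56t_ad0 p rb.toMonoidHom).V :=
  (s56ce_PhiEquiv p rb h2).symm f

theorem s56ce_dualIso_eq (f : (s56gw_dual (s56a_ad p rb)).V) :
    s56ce_dualIso p rb h2 f = s56t_val p rb.toMonoidHom (s56ce_pre p rb h2 f) := rfl

theorem s56ce_Phi_pre (f : (s56gw_dual (s56a_ad p rb)).V) :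
    s56ce_Phi p rb (s56ce_pre p rb h2 f) = f :=
  (s56ce_PhiEquiv p rb h2).apply_symm_apply f

theorem s56ce_pre_Phi (A : (s56t_ad0 p rb.toMonoidHom).V) :
    s56ce_pre p rb h2 (s56ce_Phi p rb A) = A :=
  (s56ce_PhiEquiv p rb h2).symm_apply_apply A

/-- (i) the values are trace-zero matrices. -/
theorem s56ce_dualIso_trace (f : (s56gw_dual (s56a_ad p rb)).V) :
    (s56ce_dualIso p rb h2 f).trace = 0 :=
  s56t_trace_val p rb.toMonoidHom _

/-- (ii) injectivity. -/
theorem s56ce_dualIso_injective : Function.Injective (s56ce_dualIso p rb h2) := by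
  intro f f' h
  have h1 : s56ce_pre p rb h2 f = s56ce_pre p rb h2 f' :=
    s56t_val_injective p rb.toMonoidHom h
  exact (s56ce_PhiEquiv p rb h2).symm.injective h1

/-- (iii) every trace-zero matrix is a value. -/
theorem s56ce_dualIso_surj (A : Matrix (Fin 2) (Fin 2) k) (hA : A.trace = 0) :
    ∃ f : (s56gw_dual (s56a_ad p rb)).V, s56ce_dualIso p rb h2 f = A := by
  refine ⟨s56ce_Phi p rb (s56t_mkV p rb.toMonoidHom A hA), ?_⟩
  rw [s56ce_dualIso_eq, s56ce_pre_Phi]
  rfl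

/-- the characterising property: `f m = Tr_{k/𝔽_p} (tr (s56ce_dualIso f * m))`. -/
theorem s56ce_dualIso_spec (f : (s56gw_dual (s56a_ad p rb)).V)
    (m : (s56a_ad p rb).V) :
    (show Module.Dual (ZMod p) (s56t_ad0 p rb.toMonoidHom).V from f) m =
      Algebra.trace (ZMod p) k
        (s56ce_dualIso p rb h2 f * s56t_val p rb.toMonoidHom m).trace := by
  conv_lhs => rw [← s56ce_Phi_pre p rb h2 f]
  rfl

/-- (iv) **equivariance**: `s56ce_dualIso` intertwines the action on `M' = (ad⁰)^*(1)` with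
`s56g_twRep rb` (`= ad ⊗ det`), when `det rb` is the mod `p` cyclotomic character. -/
theorem s56ce_dualIso_equivariant
    (hdet : ∀ g : GQ, (rb g).det = algebraMap (ZMod p) k ((cycloChar p g : (ZMod p)ˣ) : ZMod p))
    (g : GQ) (f : (s56gw_dual (s56a_ad p rb)).V) :
    s56ce_dualIso p rb h2 ((s56gw_dual (s56a_ad p rb)).ρ g f) =
      s56g_twRep rb g (s56ce_dualIso p rb h2 f) := by
  set A := s56ce_pre p rb h2 f with hAdef
  have htr : (s56g_twRep rb g (s56t_val p rb.toMonoidHom A)).trace = 0 := by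
    rw [s56g_twRep_trace, s56t_trace_val, mul_zero]
  -- the candidate preimage
  set A' := s56t_mkV p rb.toMonoidHom (s56g_twRep rb g (s56t_val p rb.toMonoidHom A)) htr
    with hA'def
  have key : s56ce_Phi p rb A' = (s56gw_dual (s56a_ad p rb)).ρ g f := by
    apply LinearMap.ext
    intro m
    have hf : f = s56ce_Phi p rb A := (s56ce_Phi_pre p rb h2 f).symm
    rw [Rep.dualTwist_ρ_apply, hf]
    show s56ce_tf p (s56g_twRep rb g (s56t_val p rb.toMonoidHom A)) (s56t_val p rb.toMonoidHom m) =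
      ((cycloChar p g : (ZMod p)ˣ) : ZMod p) *
        s56ce_tf p (s56t_val p rb.toMonoidHom A)
          (rb.toMonoidHom g⁻¹ * s56t_val p rb.toMonoidHom m * rb.toMonoidHom g⁻¹⁻¹)
    unfold s56ce_tf
    rw [s56g_twRep_apply, Matrix.smul_mul, Matrix.trace_smul, smul_eq_mul, hdet g,
      ← Algebra.smul_def, map_smul, smul_eq_mul, inv_inv]
    congr 2
    show (rb g * s56t_val p rb.toMonoidHom A * rb g⁻¹ * s56t_val p rb.toMonoidHom m).trace =
      (s56t_val p rb.toMonoidHom A * (rb g⁻¹ * s56t_val p rb.toMonoidHom m * rb g)).trace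
    rw [Matrix.mul_assoc, Matrix.mul_assoc, Matrix.trace_mul_comm]
    simp only [Matrix.mul_assoc]
  have h3 : s56ce_pre p rb h2 ((s56gw_dual (s56a_ad p rb)).ρ g f) = A' := by
    rw [← key, s56ce_pre_Phi]
  rw [s56ce_dualIso_eq, h3, s56ce_dualIso_eq]
  rfl

end

end Fermat.Agent.S56
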