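/-
S56 / [CHEB] (helper15, prefix `s56ce_`), part 6: the Chebotarev seam `s56a_Cheb_stmt` of
`S56/Asm/Seams.lean`, modulo the input [H1-VAN] (`s56g_H1Van rb`, helper10 / helper24).

* `s56ce_det_eq`   : `det (rb g) = χ_p(g)` in `k`, from the frozen `DetIsCyclotomic`;
* `s56ce_psi …`    : the matrix cocycle `ψ g = s56ce_dualIso (c g)` of a cocycle `c` of
                     `M' = (ad⁰ rb)^*(1)`, its cocycle identity for `s56g_twRep rb`, and the two
                     transfers (global coboundaries, coboundaries at one element);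
* `s56ce_hsel`     : the selection hypothesis of `s56ce_gw` from helper24's `s56g_select`;
* `s56ce_cheb`     : `(∀ …, s56a_Hyp p rb.toResidualGaloisRep → s56g_H1Van rb) → s56a_Cheb_stmt`.
-/
import Mathlib
import Fermat.Agent.S56.ChebEl.DualIso
import Fermat.Agent.S56.ChebEl.Bridge
import Fermat.Agent.S56.Asm.M
import Fermat.Agent.S55.DualTwistHyp

set_option autoImplicit false
set_option linter.unusedSectionVars false
set_option linter.style.haveILetI false

open CategoryTheory groupCohomology ExtCitation Module Polynomial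

namespace Fermat.Agent.S56

open Fermat.Agent.S53 Matrix

noncomputable section

local notation "Qb" => AlgebraicClosure ℚ
local notation "GQ" => (AlgebraicClosure ℚ ≃ₐ[ℚ] AlgebraicClosure ℚ)

variable {k : Type} [Field k] [Finite k] (p : ℕ) [Fact p.Prime] [Algebra (ZMod p) k]
  (rb : FramedResidual k)

/-- `2 ≠ 0` in a field of odd characteristic `p`. -/
theorem s56ce_two_ne_zero (hp2 : p ≠ 2) : (2 : k) ≠ 0 := by
  have hp : p.Prime := Fact.out
  have h2 : (2 : ZMod p) ≠ 0 := by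
    intro h
    have h' : ((2 : ℕ) : ZMod p) = 0 := by exact_mod_cast h
    rw [ZMod.natCast_eq_zero_iff] at h'
    exact hp2 ((Nat.prime_dvd_prime_iff_eq hp Nat.prime_two).1 h')
  intro h
  apply h2
  apply (algebraMap (ZMod p) k).injective
  rw [map_ofNat, map_zero]
  exact h

/-- the defining property of the prelude's `cycloExp`. -/
theorem s56ce_cycloExp_spec (σ : GQ) (μ : Qb) (hμ : μ ^ p = 1) : σ μ = μ ^ cycloExp p σ := by
  haveI : NeZero p := ⟨(Fact.out : p.Prime).ne_zero⟩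
  have hu : IsUnit μ := IsUnit.of_pow_eq_one hμ (NeZero.ne p)
  obtain ⟨u, rfl⟩ := hu
  have hmem : u ∈ rootsOfUnity p Qb := by
    rw [mem_rootsOfUnity]
    exact Units.ext (by simpa using hμ)
  exact modularCyclotomicCharacter.spec Qb (card_rootsOfUnity_eq_self p)
    (σ : Qb ≃+* Qb) hmem

/-- `det rb = χ_p` from the frozen `DetIsCyclotomic`. -/
theorem s56ce_det_eq
    (hdet : (GaloisRepAdic.ofResidualGaloisRep rb.toResidualGaloisRep).DetIsCyclotomic p)
    (g : GQ) :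
    (rb g).det = algebraMap (ZMod p) k ((cycloChar p g : (ZMod p)ˣ) : ZMod p) := by
  have h := hdet.2 1 g (cycloExp p g) (fun μ hμ => by
    rw [pow_one] at hμ
    exact s56ce_cycloExp_spec p g μ hμ)
  have hpk : ((p ^ 1 : ℕ) : k) = 0 := by
    rw [pow_one]
    have : ((p : ZMod p) : ZMod p) = 0 := ZMod.natCast_self p
    have h2 := congrArg (algebraMap (ZMod p) k) this
    rwa [map_natCast, map_zero] at h2
  rw [hpk, Ideal.span_singleton_eq_bot.2 rfl, Ideal.mem_bot, sub_eq_zero] at h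
  have h3 : LinearMap.det ((GaloisRepAdic.ofResidualGaloisRep rb.toResidualGaloisRep).ρ g) =
      (rb g).det := by
    show LinearMap.det (Matrix.toLin' (rb.toMonoidHom g)) = _
    rw [LinearMap.det_toLin']
  rw [← h3, h, coe_cycloChar, map_natCast]

variable (h2 : (2 : k) ≠ 0)

/-- the matrix cocycle of a cocycle of `M' = (ad⁰ rb)^*(1)`. -/
def s56ce_psi (c : GQ → (s56gw_dual (s56a_ad p rb)).V) : GQ → Matrix (Fin 2) (Fin 2) k :=
  fun g => s56ce_dualIso p rb h2 (c g)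

theorem s56ce_psi_trace (c : GQ → (s56gw_dual (s56a_ad p rb)).V) (g : GQ) :
    (s56ce_psi p rb h2 c g).trace = 0 :=
  s56ce_dualIso_trace p rb h2 _

variable (hdet : ∀ g : GQ, (rb g).det = algebraMap (ZMod p) k ((cycloChar p g : (ZMod p)ˣ) : ZMod p))

include hdet

theorem s56ce_psi_isCoc (c : cocycles₁ (s56gw_dual (s56a_ad p rb))) :
    s56g_IsCoc (s56g_twRep rb) (s56ce_psi p rb h2 (c : GQ → (s56gw_dual (s56a_ad p rb)).V)) := by
  intro g h
  unfold s56ce_psi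
  rw [(mem_cocycles₁_iff (c : GQ → (s56gw_dual (s56a_ad p rb)).V)).1 c.2 g h, map_add,
    s56ce_dualIso_equivariant p rb h2 hdet, add_comm]

/-- coboundaries at one element transfer. -/
theorem s56ce_psi_cob_at (c : GQ → (s56gw_dual (s56a_ad p rb)).V) (σ : GQ)
    (h : s56ce_Cob (s56gw_dual (s56a_ad p rb)).ρ c σ) :
    ∃ m : Matrix (Fin 2) (Fin 2) k, s56ce_psi p rb h2 c σ = s56g_twRep rb σ m - m := by
  obtain ⟨x, hx⟩ := h
  refine ⟨s56ce_dualIso p rb h2 x, ?_⟩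
  unfold s56ce_psi
  rw [hx, map_sub, s56ce_dualIso_equivariant p rb h2 hdet]

/-- global coboundaries transfer back. -/
theorem s56ce_psi_cob (c : cocycles₁ (s56gw_dual (s56a_ad p rb)))
    (h : ∃ m : Matrix (Fin 2) (Fin 2) k, m.trace = 0 ∧
      ∀ g, s56ce_psi p rb h2 (c : GQ → (s56gw_dual (s56a_ad p rb)).V) g = s56g_twRep rb g m - m) :
    (H1π (s56gw_dual (s56a_ad p rb))).hom c = 0 := by
  obtain ⟨m, hm, hc⟩ := h
  obtain ⟨x, hx⟩ := s56ce_dualIso_surj p rb h2 m hm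
  rw [H1π_eq_zero_iff]
  refine ⟨x, ?_⟩
  funext g
  apply s56ce_dualIso_injective p rb h2
  have := hc g
  unfold s56ce_psi at this
  rw [this, ← hx, ← s56ce_dualIso_equivariant p rb h2 hdet, ← map_sub]
  rfl

omit hdet

/-- an element fixing the `p`-th roots of unity has trivial mod `p` cyclotomic character. -/
theorem s56ce_cycloChar_eq_one {σ : GQ} (hσ : σ ∈ s56g_cyc p) : cycloChar p σ = 1 := by
  have hp : p.Prime := Fact.out
  haveI : NeZero p := ⟨hp.ne_zero⟩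
  obtain ⟨ζ, hζ⟩ := HasEnoughRootsOfUnity.exists_primitiveRoot Qb p
  have h1 : σ ζ = ζ := hσ ζ hζ.pow_eq_one
  have h3 : ζ ^ cycloExp p σ = ζ := by
    rw [← s56ce_cycloExp_spec p σ ζ hζ.pow_eq_one, h1]
  have hζ0 : ζ ≠ 0 := hζ.ne_zero hp.ne_zero
  apply Units.ext
  rw [coe_cycloChar, Units.val_one]
  rcases Nat.eq_zero_or_pos (cycloExp p σ) with h0 | hpos
  · exfalso
    rw [h0, pow_zero] at h3
    exact hζ.ne_one hp.one_lt h3.symm
  · have h4 : ζ ^ (cycloExp p σ - 1) = 1 := by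
      have h5 : ζ ^ (cycloExp p σ - 1) * ζ = 1 * ζ := by
        rw [← pow_succ, Nat.sub_add_cancel hpos, h3, one_mul]
      exact mul_right_cancel₀ hζ0 h5
    have h6 : p ∣ cycloExp p σ - 1 := hζ.dvd_of_pow_eq_one _ h4
    have h7 : ((cycloExp p σ - 1 : ℕ) : ZMod p) = 0 := (ZMod.natCast_eq_zero_iff _ _).2 h6
    have h8 : cycloExp p σ = (cycloExp p σ - 1) + 1 := (Nat.sub_add_cancel hpos).symm
    rw [h8, Nat.cast_add, h7, zero_add, Nat.cast_one]

/-- **the selection hypothesis of `s56ce_gw`** for `M' = (ad⁰ rb)^*(1)`, from helper24's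
`s56g_select` and the input [H1-VAN]. -/
theorem s56ce_hsel (hp2 : p ≠ 2) (hyp : s56a_Hyp p rb.toResidualGaloisRep) (hvan : s56g_H1Van rb)
    (n : ℕ) (c : cocycles₁ (s56gw_dual (s56a_ad p rb)))
    (hc : (H1π (s56gw_dual (s56a_ad p rb))).hom c ≠ 0) :
    ∃ σ₀ ∈ s56g_cyc (p ^ (n + 1)), s56ce_Reg rb.toResidualGaloisRep σ₀ ∧
      ¬ s56ce_Cob (s56gw_dual (s56a_ad p rb)).ρ (c : GQ → (s56gw_dual (s56a_ad p rb)).V) σ₀ := by
  have hp : p.Prime := Fact.out
  have h2 : (2 : k) ≠ 0 := s56ce_two_ne_zero p hp2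
  have hdet := s56ce_det_eq p rb hyp.hdet
  have hsplit : ∀ σ : GQ, ∃ α β : k, (rb σ).charpoly = (X - C α) * (X - C β) := by
    intro σ
    obtain ⟨α, β, h⟩ := hyp.hsplit σ
    exact ⟨α, β, by rw [← s56g_fr_charpoly]; exact h⟩
  have hdet1 : ∀ σ ∈ s56g_cyc p, (rb σ).det = 1 := by
    intro σ hσ
    rw [hdet σ, s56ce_cycloChar_eq_one p hσ, Units.val_one, map_one]
  obtain ⟨σ₀, hcyc, ⟨α, β, hαβ, hch⟩, hnz⟩ := s56g_select rb p hp.ne_zero n h2 hyp.habs hyp.hTW
    hsplit hdet1 hvan (s56ce_psi p rb h2 (c : GQ → (s56gw_dual (s56a_ad p rb)).V))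
    (s56ce_psi_trace p rb h2 _) (s56ce_psi_isCoc p rb h2 hdet c)
    (fun h => hc (s56ce_psi_cob p rb h2 hdet c h))
  refine ⟨σ₀, hcyc, ⟨α, β, hαβ, by rw [s56g_fr_charpoly]; exact hch⟩, fun hcob => ?_⟩
  obtain ⟨m, hm⟩ := s56ce_psi_cob_at p rb h2 hdet _ σ₀ hcob
  exact hnz m hm

end

/-- **the Chebotarev seam of [ASM]**, modulo the input [H1-VAN]. -/
theorem s56ce_cheb
    (hvan : ∀ (p : ℕ) [Fact p.Prime], p ≠ 2 → ∀ (k : Type) [Field k] [Finite k]
      [Algebra (ZMod p) k] (rb : FramedResidual k), s56a_Hyp p rb.toResidualGaloisRep →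
      s56g_H1Van rb) : s56a_Cheb_stmt := by
  intro p _ hp2 k _ _ _ rb hyp Sm hpSm hur D hD hDfin n T0
  have hp : p.Prime := Fact.out
  have h2 : (2 : k) ≠ 0 := s56ce_two_ne_zero p hp2
  obtain ⟨hMfin, hMsm, -, -, hMur⟩ := s56am_M p hp2 k rb hyp
  haveI := hMfin
  haveI := hDfin
  have hsm' : s56gw_Smooth (s56gw_dual (s56a_ad p rb)) :=
    Fermat.Agent.S55.tl_dualTwist_smooth (s56a_ad p rb) hMsm
  have hur' : s56gw_UnrOut Sm (s56gw_dual (s56a_ad p rb)) :=
    Fermat.Agent.S55.tl_dualTwist_unramified (s56a_ad p rb) Sm hpSm (hMur Sm hur)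
  have hreg0 : ∃ σ₀ ∈ s56g_cyc (p ^ (n + 1)), s56ce_Reg rb.toResidualGaloisRep σ₀ :=
    s56g_res_regular rb.toResidualGaloisRep h2 hyp.habs hyp.hTW hyp.hsplit (s56g_cyc (p ^ (n + 1)))
      (s56g_cyc_comm _ (pow_ne_zero _ hp.ne_zero))
  obtain ⟨qv, hinj, hq, hker⟩ := s56ce_gw rb.toResidualGaloisRep n Sm hpSm hur
    (s56gw_dual (s56a_ad p rb)) hsm' hur' D hD hreg0
    (fun c _ _ hc0 => s56ce_hsel p rb hp2 hyp (hvan p hp2 k rb hyp) n c hc0)
    (finrank (ZMod p) D) le_rfl T0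
  refine ⟨qv, hinj, fun i => ⟨(hq i).2.1, (hq i).2.2.1⟩, fun i => (hq i).2.2.2, fun y hy hloc => ?_⟩
  have hmem : y ∈ D ⊓ ⨅ i, LinearMap.ker (s56gw_loc (s56gw_dual (s56a_ad p rb)) (qv i)) := by
    rw [Submodule.mem_inf, Submodule.mem_iInf]
    exact ⟨hy, fun i => LinearMap.mem_ker.2 (hloc i)⟩
  rw [hker] at hmem
  exact (Submodule.mem_bot _).1 hmem

end Fermat.Agent.S56
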