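/-
S56 — seam 7 of ruling #4 (`s56a_Cheb_stmt`) CLOSED, no hypothesis left:
`s56ce_cheb` (ChebEl/Final.lean) fed with helper10's `s56hv_H1Van'` (H1Van/Det5.lean).
-/
import Fermat.Agent.S56.ChebEl.Final
import Fermat.Agent.S56.H1Van.Det5

namespace Fermat.Agent.S56

open Polynomial
open Fermat.Agent.S53

/-- **[H1-VAN]** in the exact shape consumed by `s56ce_cheb`. -/
theorem s56ce_hvan (p : ℕ) [Fact p.Prime] (hp2 : p ≠ 2) (k : Type) [Field k] [Finite k]
    [Algebra (ZMod p) k] (rb : FramedResidual k)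
    (hyp : s56a_Hyp p rb.toResidualGaloisRep) : s56g_H1Van rb := by
  have : CharP k p := charP_of_injective_algebraMap (algebraMap (ZMod p) k).injective p
  refine s56hv_H1Van' rb hp2 hyp.habs hyp.hdet (fun σ => ?_)
  obtain ⟨α, β, h⟩ := hyp.hsplit σ
  exact ⟨α, β, (s56g_fr_charpoly rb σ).symm.trans h⟩

/-- **seam 7 of ruling #4, CLOSED**: the Chebotarev / Taylor–Wiles primes seam. -/
theorem s56ce_cheb_closed : s56a_Cheb_stmt :=
  s56ce_cheb (fun p _ hp2 k _ _ _ rb hyp => s56ce_hvan p hp2 k rb hyp)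

end Fermat.Agent.S56
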